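/-
MW / HT-Q (sub-architect: helper89) — THE INSTANCE of the global height setting for
`F = modularFunctionFieldBar N` over `Qb`: shared definitions.

* `rho N` : the representation of `G_ℚ` on the function field;
* `JU N U₀` : the classes of `JZero N` fixed by the subgroup `U₀ ≤ G_ℚ`;
* `clPl N` : the true class `D ↦ [D − deg D · ∞]` of an effective divisor on all places (the
  coefficient at `∞` is ignored);
* `IsBasisL pinf M w` : `w` is a basis of `L(M · pinf)` (functions regular off `pinf` with pole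
  order `≤ M` there);
* `settingOf` : the `HG.Setting` built from a local height datum `HtM.LocalHt` (HT-M), a
  `G_ℚ`-fixed coordinate `t`, a subgroup `U₀ ≤ G_ℚ` and a finite transversal `Sg₀` of `G_ℚ / U₀`;
* `IsModular N 𝒮 U₀ Sg₀` : the shape of such a setting (what the function-field rows need to
  know about `𝒮`);
* `GoodRaw` : the predicate `CurveD₀.Good` with explicit parameters.
-/
import Mathlib
import Fermat.Agent.MW.HG.Curve2
import Fermat.Agent.MW.Ht.Defs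
import Fermat.Agent.MW.Ht.AbsFamilyQb
import Fermat.Agent.MW.Ht.SettingPf
import Fermat.Agent.MW.Ht.RamDiv
import Fermat.Agent.MW.HtM.Interface
import Fermat.Agent.Lib.FF.RRModular

set_option autoImplicit false

noncomputable section

namespace Fermat.Agent.MW.Inst

open AlgebraicCurve ModularCurve Fermat.Agent.MW.HtM Fermat.Agent.MW.HQ Fermat.Agent.MW.HG
  Fermat.Agent.MW.Ht.Defs Fermat.Agent.MW.Ht.AbsQb

local notation "Qb" => AlgebraicClosure ℚ
local notation "GQ" => (AlgebraicClosure ℚ ≃ₐ[ℚ] AlgebraicClosure ℚ)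

section generic

variable {K F V : Type*} [Field K] [Field F] [Algebra K F]

/-- `w` is a basis of `L(M · pinf)`. -/
structure IsBasisL (pinf : Place K F) (M : ℕ) {ι : Type*} (w : ι → F) : Prop where
  reg : ∀ i, RegOff pinf (w i)
  pole : ∀ i, -(M : ℤ) ≤ pinf.ord (w i)
  li : LinearIndependent K w
  span : ∀ f : F, RegOff pinf f → -(M : ℤ) ≤ pinf.ord f → f ∈ Submodule.span K (Set.range w)

variable {Ab : AbsFamily K V} {pinf : Place K F} {t : F} {m : ℕ}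

/-- The predicate `CurveD₀.Good` with explicit parameters. -/
def GoodRaw (𝒮 : Setting Ab pinf t m) (γ n : ℕ) (κ : Fin γ → F) (w₁ : Fin (n + 1) → F)
    (𝔯 : Place K F →₀ ℕ) (E : Place K F →₀ ℕ) : Prop :=
  ∃ (P : Fin γ → Place K F) (R : Fin n → Place K F) (a : Fin (n + 1) → K),
    E = tdiv P ∧ Function.Injective P ∧ (∀ j, P j ≠ pinf) ∧ tdiv P ∈ 𝒮.RatU ∧
    Matrix.det (Matrix.of fun i j => pval (P j) (κ i)) ≠ 0 ∧
    𝒮.UFix a ∧ (∑ i, a i • w₁ i) ≠ 0 ∧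
    IsZDiv pinf (∑ i, a i • w₁ i) (tdiv P + tdiv R) ∧
    Function.Injective R ∧ (∀ j, R j ≠ pinf) ∧ tdiv R ∈ 𝒮.RatU ∧
    (∀ Q, (tdiv P + tdiv R) Q ≤ 1) ∧
    Set.InjOn (fun Q : Place K F => pval Q t) ((tdiv P + tdiv R).support : Set (Place K F)) ∧
    Far 𝒮.far (tdiv P + tdiv R) 𝔯 ∧
    Far 𝒮.far (tdiv P) (tdiv R) ∧
    (∃ i : Fin (n + 1),
      Matrix.det (Matrix.of fun k j => pval (R j) (w₁ (i.succAbove k))) ≠ 0)

theorem good_iff_goodRaw {𝒮 : Setting Ab pinf t m} {J : Type*} [AddCommGroup J]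
    (𝒟 : CurveD₀ 𝒮 J) (E : Place K F →₀ ℕ) :
    𝒟.Good E ↔ GoodRaw 𝒮 𝒟.γ 𝒟.n 𝒟.κ 𝒟.w₁ 𝒟.𝔯 E := Iff.rfl

end generic

variable (N : ℕ) [NeZero N]

/-- The representation of `G_ℚ` on the function field of `X_0(N)` over `Qb`. -/
abbrev rho : GQ →* SemilinearAut Qb (FN N) := arithmeticGalois (modularFunctionFieldFull N)

/-- The classes of `JZero N` fixed by `U₀`. -/
def JU (U₀ : Subgroup GQ) : AddSubgroup (JZero N) where
  carrier := {x | ∀ σ ∈ U₀, σ • x = x}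
  zero_mem' := fun σ _ => smul_zero σ
  add_mem' := fun {a b} ha hb σ hσ => by rw [smul_add, ha σ hσ, hb σ hσ]
  neg_mem' := fun {a} ha σ hσ => by rw [smul_neg, ha σ hσ]

omit [NeZero N] in
theorem mem_JU {U₀ : Subgroup GQ} {x : JZero N} : x ∈ JU N U₀ ↔ ∀ σ ∈ U₀, σ • x = x := Iff.rfl

/-- The true class `[D − deg D · ∞]` of an effective divisor (the coefficient at `∞` is
ignored). -/
def clPl : (Pl N →₀ ℕ) →+ JZero N :=
  (clFull N).comp (Finsupp.subtypeDomainAddMonoidHom (p := fun P : Pl N => P ≠ pinf N))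

theorem clPl_apply (D : Pl N →₀ ℕ) :
    clPl N D = clFull N (D.subtypeDomain fun P : Pl N => P ≠ pinf N) := rfl

open Classical in
/-- **The global setting on `X_0(N)`** from a local height datum. -/
def settingOf {t : FN N} {m : ℕ} (L : LocalHt absFamily (pinf N) t m)
    (htfix : ∀ σ : GQ, rho N σ • t = t) (hm : 0 < m) (U₀ : Subgroup GQ) (Sg₀ : Finset GQ)
    (hS : ∀ g : GQ, ∃! s, s ∈ Sg₀ ∧ s⁻¹ * g ∈ U₀)
    (htreg : RegOff (pinf N) t) (htpole : (pinf N).ord t = -(m : ℤ)) :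
    Setting absFamily (pinf N) t m where
  δ := L.δ
  δ_symm := L.δ_symm
  δ_nonneg := L.δ_nonneg
  δ_le_one := L.δ_le_one
  δ_self := L.δ_self
  δ_pos := L.δ_pos
  δ_eq_one := L.δ_eq_one
  Γ := (rho N).range
  U := U₀.map (rho N)
  Sg := Sg₀.image (rho N)
  U_le := map_le_range (rho N) U₀
  Sg_mem := image_mem_range (rho N) Sg₀
  inf_fixed := by
    rintro _ ⟨σ, rfl⟩
    exact galPl_pinf N σ
  t_fixed := by
    rintro _ ⟨σ, rfl⟩
    exact htfix σ
  m_pos := hm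
  t_reg := htreg
  t_pole := htpole
  resK := fun P f hf =>
    DetBoundB.hasVal_of_resK (Fermat.Agent.Lib.FF.RR.resK_modular N P) hf
  fib := fun τ => by
    obtain ⟨Z, h0, h1, h2⟩ := Fermat.Agent.MW.Ht.RamDiv.exists_fibDiv_modular N htreg htpole hm τ
    exact ⟨Z, ⟨h0, h1⟩, h2⟩
  pf := fun a ha hfix =>
    pf_of_transversal (rho N) (fun σ a => rfl) U₀ Sg₀ hS a ha hfix

/-- The shape of the global setting on `X_0(N)`. -/
structure IsModular {t : FN N} {m : ℕ} (𝒮 : Setting absFamily (pinf N) t m)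
    (U₀ : Subgroup GQ) (Sg₀ : Finset GQ) : Prop where
  hΓ : 𝒮.Γ = (rho N).range
  hU : 𝒮.U = U₀.map (rho N)
  hSg : ∀ s, s ∈ 𝒮.Sg ↔ ∃ σ ∈ Sg₀, rho N σ = s
  hS : ∀ g : GQ, ∃! s, s ∈ Sg₀ ∧ s⁻¹ * g ∈ U₀

theorem settingOf_isModular {t : FN N} {m : ℕ} (L : LocalHt absFamily (pinf N) t m)
    (htfix : ∀ σ : GQ, rho N σ • t = t) (hm : 0 < m) (U₀ : Subgroup GQ) (Sg₀ : Finset GQ)
    (hS : ∀ g : GQ, ∃! s, s ∈ Sg₀ ∧ s⁻¹ * g ∈ U₀)
    (htreg : RegOff (pinf N) t) (htpole : (pinf N).ord t = -(m : ℤ)) :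
    IsModular N (settingOf N L htfix hm U₀ Sg₀ hS htreg htpole) U₀ Sg₀ where
  hΓ := rfl
  hU := rfl
  hSg := fun s => by
    classical
    unfold settingOf
    simp only [Finset.mem_image]
  hS := hS

theorem settingOf_mle {t : FN N} {m : ℕ} (L : LocalHt absFamily (pinf N) t m)
    (htfix : ∀ σ : GQ, rho N σ • t = t) (hm : 0 < m) (U₀ : Subgroup GQ) (Sg₀ : Finset GQ)
    (hS : ∀ g : GQ, ∃! s, s ∈ Sg₀ ∧ s⁻¹ * g ∈ U₀)
    (htreg : RegOff (pinf N) t) (htpole : (pinf N).ord t = -(m : ℤ)) :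
    (settingOf N L htfix hm U₀ Sg₀ hS htreg htpole).MLe :=
  fun f M h1 h2 k => L.mle f M h1 h2 k

theorem settingOf_lip {t : FN N} {m : ℕ} (L : LocalHt absFamily (pinf N) t m)
    (htfix : ∀ σ : GQ, rho N σ • t = t) (hm : 0 < m) (U₀ : Subgroup GQ) (Sg₀ : Finset GQ)
    (hS : ∀ g : GQ, ∃! s, s ∈ Sg₀ ∧ s⁻¹ * g ∈ U₀)
    (htreg : RegOff (pinf N) t) (htpole : (pinf N).ord t = -(m : ℤ)) :
    (settingOf N L htfix hm U₀ Sg₀ hS htreg htpole).Lip := by
  obtain ⟨C, hC, h⟩ := L.lip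
  exact ⟨C, hC, fun v R hR τ Z hZ => h v R hR τ Z hZ.1 hZ.2⟩

@[simp] theorem settingOf_δ {t : FN N} {m : ℕ} (L : LocalHt absFamily (pinf N) t m)
    (htfix : ∀ σ : GQ, rho N σ • t = t) (hm : 0 < m) (U₀ : Subgroup GQ) (Sg₀ : Finset GQ)
    (hS : ∀ g : GQ, ∃! s, s ∈ Sg₀ ∧ s⁻¹ * g ∈ U₀)
    (htreg : RegOff (pinf N) t) (htpole : (pinf N).ord t = -(m : ℤ)) :
    (settingOf N L htfix hm U₀ Sg₀ hS htreg htpole).δ = L.δ := rfl

end Fermat.Agent.MW.Inst
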