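/-
MW / HT-Q instance, row I5a (helper33) — THE CLASS MAP in the vocabulary of `MW/Inst/Defs.lean`:
an additive map `cl : (Pl N →₀ ℕ) →+ JU N U₀` into the `U₀`-fixed classes, equal to the true class
`clPl N D = [D − deg D · ∞]` on the rational (`U`-stable, off `∞`) divisors of a modular setting.

It is the orbit construction of `MW/HG/ClOrbit.lean`, through `MW/Gen/PlBridge.lean`
(`PlBridge.exists_cl`), transported to the definitions of `Inst.Defs`. The row's literal is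
`Inst.exists_cl`; the auxiliary lemmas live in the namespace `Inst.ClassMap`
(`clPl_eq_bridge`, `stable_of_mem_RatU`, `mem_RatU_iff_stable`, `clPl_mem_JU`, `cl_eq_iff_clPl`).
-/
import Mathlib
import Fermat.Agent.MW.Inst.Defs
import Fermat.Agent.MW.Gen.PlBridge

set_option autoImplicit false

noncomputable section

namespace Fermat.Agent.MW.Inst

open AlgebraicCurve ModularCurve Fermat.Agent.MW.HtM Fermat.Agent.MW.HQ Fermat.Agent.MW.HG
  Fermat.Agent.MW.Ht.Defs Fermat.Agent.MW.Ht.AbsQb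

local notation "Qb" => AlgebraicClosure ℚ
local notation "GQ" => (AlgebraicClosure ℚ ≃ₐ[ℚ] AlgebraicClosure ℚ)

variable (N : ℕ) [NeZero N]

namespace ClassMap

/-- The class map of `Inst.Defs` is the class map of `Gen.PlBridge`. -/
theorem clPl_eq_bridge (D : Pl N →₀ ℕ) : clPl N D = Gen.PlBridge.clPl N D := by
  rw [clPl_apply, Gen.PlBridge.clPl_apply]
  congr 1
  ext p
  rfl

/-- In a modular setting, a rational divisor is `U₀`-stable. -/
theorem stable_of_mem_RatU {t : FN N} {m : ℕ} (𝒮 : Setting absFamily (pinf N) t m)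
    {U₀ : Subgroup GQ} {Sg₀ : Finset GQ} (h𝒮 : IsModular N 𝒮 U₀ Sg₀) {D : Pl N →₀ ℕ}
    (hD : D ∈ 𝒮.RatU) : ∀ σ ∈ U₀, D.mapDomain (fun P => rho N σ • P) = D := by
  intro σ hσ
  refine hD.2 (rho N σ) ?_
  rw [h𝒮.hU]
  exact Subgroup.mem_map_of_mem _ hσ

/-- In a modular setting, the rational divisors are exactly the `U₀`-stable divisors off `∞`. -/
theorem mem_RatU_iff_stable {t : FN N} {m : ℕ} (𝒮 : Setting absFamily (pinf N) t m)
    {U₀ : Subgroup GQ} {Sg₀ : Finset GQ} (h𝒮 : IsModular N 𝒮 U₀ Sg₀) (D : Pl N →₀ ℕ) :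
    D ∈ 𝒮.RatU ↔ D (pinf N) = 0 ∧ ∀ σ ∈ U₀, D.mapDomain (fun P => rho N σ • P) = D := by
  refine ⟨fun hD => ⟨hD.1, stable_of_mem_RatU N 𝒮 h𝒮 hD⟩, fun hD => ⟨hD.1, ?_⟩⟩
  intro u hu
  rw [h𝒮.hU] at hu
  obtain ⟨σ, hσ, rfl⟩ := hu
  exact hD.2 σ hσ

/-- The class of a rational divisor of a modular setting is `U₀`-fixed. -/
theorem clPl_mem_JU {t : FN N} {m : ℕ} (𝒮 : Setting absFamily (pinf N) t m)
    {U₀ : Subgroup GQ} {Sg₀ : Finset GQ} (h𝒮 : IsModular N 𝒮 U₀ Sg₀) {D : Pl N →₀ ℕ}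
    (hD : D ∈ 𝒮.RatU) : clPl N D ∈ JU N U₀ := by
  intro σ hσ
  rw [clPl_eq_bridge]
  exact Gen.PlBridge.clPl_fixed N (stable_of_mem_RatU N 𝒮 h𝒮 hD) σ hσ

end ClassMap

open ClassMap

/-- **I5a — the class map**: an additive map on ALL effective divisors of places into the
`U₀`-fixed classes, equal to the true class `[D − deg D · ∞]` on the rational divisors. -/
theorem exists_cl {t : FN N} {m : ℕ} (𝒮 : Setting absFamily (pinf N) t m) {U₀ : Subgroup GQ}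
    {Sg₀ : Finset GQ} (h𝒮 : IsModular N 𝒮 U₀ Sg₀) :
    ∃ cl : (Pl N →₀ ℕ) →+ JU N U₀, ∀ D ∈ 𝒮.RatU, ((cl D : JU N U₀) : JZero N) = clPl N D := by
  obtain ⟨cl, hcl⟩ := Gen.PlBridge.exists_cl N U₀ (JU N U₀) (fun x hx => hx)
  refine ⟨cl, fun D hD => ?_⟩
  rw [hcl D (stable_of_mem_RatU N 𝒮 h𝒮 hD), clPl_eq_bridge]

/-- Transport of class equations: for a rational `D`, `cl D = x` in `JU N U₀` if and only if
`clPl N D = x` in `JZero N`. -/
theorem ClassMap.cl_eq_iff_clPl {t : FN N} {m : ℕ} (𝒮 : Setting absFamily (pinf N) t m)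
    {U₀ : Subgroup GQ} (cl : (Pl N →₀ ℕ) →+ JU N U₀)
    (hcl : ∀ D ∈ 𝒮.RatU, ((cl D : JU N U₀) : JZero N) = clPl N D) {D : Pl N →₀ ℕ}
    (hD : D ∈ 𝒮.RatU) (x : JU N U₀) : cl D = x ↔ clPl N D = (x : JZero N) := by
  rw [← hcl D hD]
  exact Subtype.ext_iff

end Fermat.Agent.MW.Inst
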