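/-
MW / HT-Q instance rows (sub-architect: helper89) — row I1 (Coord), owner: helper16.

`exists_coord` : a `G_ℚ`-fixed function `t` on `X_0(N)` over `Qb`, regular off the cusp `∞`,
with a pole of exact order `2g + 1` there.  This is
`Ht.RatCoord.exists_rational_coordinate_exact` restated in the vocabulary of `MW/Inst/Defs`.
-/
import Mathlib
import Fermat.Agent.MW.Inst.Defs
import Fermat.Agent.MW.Ht.RatCoordExact

set_option autoImplicit false

noncomputable section

namespace Fermat.Agent.MW.Inst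

open AlgebraicCurve ModularCurve Fermat.Agent.MW.HtM Fermat.Agent.MW.HQ Fermat.Agent.MW.HG
  Fermat.Agent.MW.Ht.Defs Fermat.Agent.MW.Ht.AbsQb

local notation "Qb" => AlgebraicClosure ℚ
local notation "GQ" => (AlgebraicClosure ℚ ≃ₐ[ℚ] AlgebraicClosure ℚ)

variable (N : ℕ) [NeZero N]

/-- Row I1: the `G_ℚ`-fixed coordinate with a pole of exact order `2g + 1` at `∞` and no other
pole. -/
theorem exists_coord : ∃ t : FN N, (∀ σ : GQ, rho N σ • t = t) ∧ RegOff (pinf N) t ∧
    (pinf N).ord t = -((2 * genusFF Qb (FN N) + 1 : ℕ) : ℤ) := by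
  obtain ⟨t, h1, h2, h3, -, -⟩ :=
    Fermat.Agent.MW.Ht.RatCoord.exists_rational_coordinate_exact N
  exact ⟨t, h1, h2, h3⟩

/-- Row I1 with the transcendence and the degree `[F : Qb(t)] = 2g + 1` kept. -/
theorem exists_coord_full : ∃ t : FN N, (∀ σ : GQ, rho N σ • t = t) ∧ RegOff (pinf N) t ∧
    (pinf N).ord t = -((2 * genusFF Qb (FN N) + 1 : ℕ) : ℤ) ∧ Transcendental Qb t ∧
    ∃ _ : FiniteDimensional (IntermediateField.adjoin Qb {t}) (FN N),
      Module.finrank (IntermediateField.adjoin Qb {t}) (FN N)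
        = 2 * genusFF Qb (FN N) + 1 := by
  obtain ⟨t, h1, h2, h3, h4, h5⟩ :=
    Fermat.Agent.MW.Ht.RatCoord.exists_rational_coordinate_exact N
  exact ⟨t, h1, h2, h3, h4, h5⟩

end Fermat.Agent.MW.Inst
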