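/-
MW / HT-Q instance row I5c (tasks row 490, helper81) — `exists_fun_of_clPl`: on `X_0(N)`, a
`U₀`-stable effective divisor `Z` off `∞` of class `0` (`clPl N Z = 0`, i.e. `Z − deg Z · ∞` is
principal) is the divisor of zeros of a `U₀`-FIXED function `ψ`, regular off `∞`, with pole order
at most (in fact exactly) `deg Z` at `∞`.

Bridge of helper83's `MW.Gen.ClassZero.exists_fixed_fun` (descent of the generator of the line
`L(deg Z · ∞ − Z)`) into the vocabulary of `MW/Inst/Defs.lean`.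

* `ExistsFun.clPl_eq_bridge`, `ExistsFun.clPl_eq_classZero` : the class map `Inst.clPl N` agrees
  with `PlBridge.clPl N` and `ClassZero.clPl N`;
* `exists_fun_of_clPl_ord` : the statement with the exact pole order;
* `exists_fun_of_clPl` : the literal of row 490.
-/
import Mathlib
import Fermat.Agent.MW.Inst.Defs
import Fermat.Agent.MW.Gen.ClassZeroInst

set_option autoImplicit false

noncomputable section

namespace Fermat.Agent.MW.Inst

open AlgebraicCurve ModularCurve Fermat.Agent.MW.HtM Fermat.Agent.MW.HQ Fermat.Agent.MW.HG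
  Fermat.Agent.MW.Ht.Defs Fermat.Agent.MW.Ht.AbsQb

local notation "Qb" => AlgebraicClosure ℚ
local notation "GQ" => (AlgebraicClosure ℚ ≃ₐ[ℚ] AlgebraicClosure ℚ)

variable (N : ℕ) [NeZero N]

namespace ExistsFun

/-- The class map of `MW/Inst/Defs.lean` is helper69's `PlBridge.clPl`. -/
theorem clPl_eq_bridge (Z : Pl N →₀ ℕ) :
    clPl N Z = Fermat.Agent.MW.Gen.PlBridge.clPl N Z := by
  rw [clPl_apply, Fermat.Agent.MW.Gen.PlBridge.clPl_apply]
  congr 1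
  ext p
  rfl

/-- The class map of `MW/Inst/Defs.lean` is helper83's `ClassZero.clPl`. -/
theorem clPl_eq_classZero (Z : Pl N →₀ ℕ) :
    clPl N Z = Fermat.Agent.MW.Gen.ClassZero.clPl N Z := by
  rw [clPl_eq_bridge, Fermat.Agent.MW.Gen.ClassZeroInst.clPl_eq]

end ExistsFun

/-- Row I5c with the exact pole order at `∞`. -/
theorem exists_fun_of_clPl_ord {t : FN N} {m : ℕ} (𝒮 : Setting absFamily (pinf N) t m)
    {U₀ : Subgroup GQ} {Sg₀ : Finset GQ} (h𝒮 : IsModular N 𝒮 U₀ Sg₀) (Z : Pl N →₀ ℕ)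
    (hZ : Z ∈ 𝒮.RatU) (hcl : clPl N Z = 0) :
    ∃ ψ : FN N, ψ ≠ 0 ∧ (∀ σ ∈ U₀, rho N σ • ψ = ψ) ∧ RegOff (pinf N) ψ ∧
      (pinf N).ord ψ = -(deg Z : ℤ) ∧ IsZDiv (pinf N) ψ Z := by
  have h1 : Fermat.Agent.MW.Gen.ClassZero.clPl N Z = 0 := by
    rw [← ExistsFun.clPl_eq_classZero]
    exact hcl
  have hZU : ∀ σ ∈ (U₀ : Set GQ),
      Z.mapDomain (fun P => arithmeticGalois (modularFunctionFieldFull N) σ • P) = Z := by
    intro σ hσ
    refine hZ.2 (rho N σ) ?_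
    rw [h𝒮.hU]
    exact Subgroup.mem_map_of_mem (rho N) hσ
  exact Fermat.Agent.MW.Gen.ClassZero.exists_fixed_fun N (U₀ : Set GQ) hZ.1 hZU h1

/-- **Row I5c (ExistsFun)**: a rational divisor of class `0` is the divisor of zeros of a
`U₀`-fixed function, regular off `∞`, with pole order at most `deg Z` at `∞`. -/
theorem exists_fun_of_clPl {t : FN N} {m : ℕ} (𝒮 : Setting absFamily (pinf N) t m)
    {U₀ : Subgroup GQ} {Sg₀ : Finset GQ} (h𝒮 : IsModular N 𝒮 U₀ Sg₀) (Z : Pl N →₀ ℕ)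
    (hZ : Z ∈ 𝒮.RatU) (hcl : clPl N Z = 0) :
    ∃ ψ : FN N, ψ ≠ 0 ∧ (∀ σ ∈ U₀, rho N σ • ψ = ψ) ∧ RegOff (pinf N) ψ ∧
      -(deg Z : ℤ) ≤ (pinf N).ord ψ ∧ IsZDiv (pinf N) ψ Z := by
  obtain ⟨ψ, hψ, hfix, hreg, hord, hzd⟩ := exists_fun_of_clPl_ord N 𝒮 h𝒮 Z hZ hcl
  exact ⟨ψ, hψ, hfix, hreg, hord.ge, hzd⟩

end Fermat.Agent.MW.Inst
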