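/-
MW / HT — instance row I2 (`LocalHt` + `ram` for `X_0(N)`): the local height datum of the
function field of `X_0(N)` over `Qb` for a coordinate `t` with a single pole, of order `m`, at
`∞`, together with the diagonal fibre bound (`HG.Setting.RamLe` for `δ := L.δ`).

`exists_localHt` is the literal row; `exists_localHt_coords` also exposes the chart coordinates
(`L = LocalHtFF.localHtFF …`, `L.δ = TwoChart.dlt absFamily t x₀ x₁`).
-/
import Mathlib
import Fermat.Agent.MW.Inst.Defs
import Fermat.Agent.MW.HtM.LocalHtFF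
import Fermat.Agent.MW.HtM.RamClosed
import Fermat.Agent.MW.Ht.RatCoordExact

set_option autoImplicit false

noncomputable section

namespace Fermat.Agent.MW.Inst

open AlgebraicCurve ModularCurve IntermediateField Fermat.Agent.MW.HtM Fermat.Agent.MW.HQ
  Fermat.Agent.MW.HG Fermat.Agent.MW.Ht.Defs Fermat.Agent.MW.Ht.AbsQb Fermat.Agent.Lib.FF

local notation "Qb" => AlgebraicClosure ℚ
local notation "GQ" => (AlgebraicClosure ℚ ≃ₐ[ℚ] AlgebraicClosure ℚ)

variable (N : ℕ) [NeZero N]

/-- A function on `X_0(N)` with a single pole, of order `m ≥ 1`, at `∞` is transcendental over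
`Qb` and the function field is finite over `Qb(t)`, of degree `m`. -/
theorem exists_finiteDimensional_of_pole (t : FN N) (m : ℕ) (hm : 0 < m)
    (htreg : RegOff (pinf N) t) (htpole : (pinf N).ord t = -(m : ℤ)) :
    Transcendental Qb t ∧ ∃ _ : FiniteDimensional Qb⟮t⟯ (FN N),
      Module.finrank Qb⟮t⟯ (FN N) = m :=
  Fermat.Agent.MW.Ht.RatCoord.finrank_adjoin_of_single_pole (Res.isFF1_modular N) (pinf N) t m
    hm htreg htpole

/-- **Row I2 with the chart coordinates exposed**: the local height datum is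
`LocalHtFF.localHtFF absFamily httr hc hm htreg htpole` for chart coordinates `x₀`, `x₁`, its
distance is `TwoChart.dlt absFamily t x₀ x₁`, and it satisfies the diagonal fibre bound. -/
theorem exists_localHt_coords (t : FN N) (m : ℕ) (hm : 0 < m) (htreg : RegOff (pinf N) t)
    (htpole : (pinf N).ord t = -(m : ℤ)) :
    ∃ (httr : Transcendental Qb t) (_ : FiniteDimensional Qb⟮t⟯ (FN N)) (n₀ n₁ : ℕ)
      (x₀ : Fin n₀ → FN N) (x₁ : Fin n₁ → FN N) (hc : LocalHtFF.IsCoords (K := Qb) t x₀ x₁)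
      (L : LocalHt absFamily (pinf N) t m),
      L = LocalHtFF.localHtFF absFamily httr hc hm htreg htpole ∧
      L.δ = TwoChart.dlt absFamily t x₀ x₁ ∧
      ∃ C : Pla → ℝ, Tame C ∧ ∀ (v : Pla) (R : Pl N), R ≠ pinf N →
        R.ord (t - algebraMap Qb (FN N) (pval R t)) = 1 →
        ∀ Z 𝔯 : Pl N →₀ ℕ, IsZDiv (pinf N) (t - algebraMap Qb (FN N) (pval R t)) Z →
          𝔯 (pinf N) = 0 →
          (∀ P : Pl N, P ≠ pinf N →
            (𝔯 P : ℤ) = P.ord (t - algebraMap Qb (FN N) (pval P t)) - 1) →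
          ((Z.erase R).prod fun S n => L.δ v R S ^ n) ^ m *
              max 1 (absFamily.abv v (pval R t)) ^ (m - 1) ≤
            C v * (𝔯.prod fun r n => L.δ v R r ^ n) ^ m := by
  obtain ⟨httr, hfd, -⟩ := exists_finiteDimensional_of_pole N t m hm htreg htpole
  have := hfd
  obtain ⟨n₀, n₁, x₀, x₁, hc⟩ := LocalHtFF.exists_coords (K := Qb) t httr
  obtain ⟨C, hC, h⟩ := RamClosed.ramLe_coords absFamily httr hc hm htreg htpole
  exact ⟨httr, hfd, n₀, n₁, x₀, x₁, hc, LocalHtFF.localHtFF absFamily httr hc hm htreg htpole,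
    rfl, rfl, C, hC, fun v R hR h1 Z 𝔯 hZ h𝔯0 h𝔯 => h v R hR h1 Z 𝔯 hZ.1 hZ.2 h𝔯0 h𝔯⟩

/-- **Row I2 (`LocalHt` + `ram`)**: the local height datum of `X_0(N)` for a coordinate `t` with
a single pole, of order `m`, at `∞`, with the diagonal fibre bound. -/
theorem exists_localHt (t : FN N) (m : ℕ) (hm : 0 < m) (htreg : RegOff (pinf N) t)
    (htpole : (pinf N).ord t = -(m : ℤ)) :
    ∃ L : LocalHt absFamily (pinf N) t m, ∃ C : Pla → ℝ, Tame C ∧ ∀ (v : Pla) (R : Pl N),
      R ≠ pinf N →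
        R.ord (t - algebraMap Qb (FN N) (pval R t)) = 1 →
        ∀ Z 𝔯 : Pl N →₀ ℕ, IsZDiv (pinf N) (t - algebraMap Qb (FN N) (pval R t)) Z →
          𝔯 (pinf N) = 0 →
          (∀ P : Pl N, P ≠ pinf N →
            (𝔯 P : ℤ) = P.ord (t - algebraMap Qb (FN N) (pval P t)) - 1) →
          ((Z.erase R).prod fun S n => L.δ v R S ^ n) ^ m *
              max 1 (absFamily.abv v (pval R t)) ^ (m - 1) ≤
            C v * (𝔯.prod fun r n => L.δ v R r ^ n) ^ m := by
  obtain ⟨-, -, -, -, -, -, -, L, -, -, hL⟩ := exists_localHt_coords N t m hm htreg htpole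
  exact ⟨L, hL⟩

end Fermat.Agent.MW.Inst
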