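/-
MW / HT-Q — row 488 (I4 NormData): the norm forms of a `Γ`-fixed family down to `Qb[t]`, for the
modular function field (helper21).  One-line instance of the generic
`HG.NormDataOf.exists_normData` at `IsFF1 Qb (FN N) _` (`Lib.FF.Res.isFF1_modular`).
-/
import Mathlib
import Fermat.Agent.MW.Inst.Defs
import Fermat.Agent.MW.HG.NormDataOf
import Fermat.Agent.Lib.FF.CanonicalFF1

set_option autoImplicit false

noncomputable section

namespace Fermat.Agent.MW.Inst

open AlgebraicCurve ModularCurve Fermat.Agent.MW.HtM Fermat.Agent.MW.HQ Fermat.Agent.MW.HG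
  Fermat.Agent.MW.Ht.Defs Fermat.Agent.MW.Ht.AbsQb

local notation "Qb" => AlgebraicClosure ℚ
local notation "GQ" => (AlgebraicClosure ℚ ≃ₐ[ℚ] AlgebraicClosure ℚ)

variable (N : ℕ) [NeZero N]

/-- **Row 488 (I4).**  Norm data of any `Γ`-fixed family, for every `HG.Setting` on the modular
function field. -/
theorem exists_normData {t : FN N} {m : ℕ} (𝒮 : Setting absFamily (pinf N) t m) {ι : Type}
    [Fintype ι] (f : ι → FN N) (M : ℕ) (hf : 𝒮.Fam f M) : Nonempty (𝒮.NormData f M) :=
  Fermat.Agent.MW.HG.NormDataOf.exists_normData (Fermat.Agent.Lib.FF.Res.isFF1_modular N) 𝒮 f M hf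

end Fermat.Agent.MW.Inst
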