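/-
MW / HT-Q, row 492 (I6 North) — helper8.

**Northcott for `U`-stable effective divisors in the final vocabulary** (`MW/Inst/Defs.lean`):
for a global setting `𝒮` on `X_0(N)` of modular shape (`IsModular N 𝒮 U₀ Sg₀`), only finitely
many divisors `E ∈ 𝒮.RatU` of degree `≤ d` have `ht 𝒮.etaU E ≤ T`.

Proof: helper82's `HG.NorthInst.north_of_setting` (= helper17's
`North.finite_divisors_of_ht_le_act` in the `HG.Setting` vocabulary); the three shape hypotheses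
are read off `IsModular`.
-/
import Mathlib
import Fermat.Agent.MW.Inst.Defs
import Fermat.Agent.MW.HG.NorthInst

set_option autoImplicit false

noncomputable section

namespace Fermat.Agent.MW.Inst

open AlgebraicCurve ModularCurve Fermat.Agent.MW.HtM Fermat.Agent.MW.HQ Fermat.Agent.MW.HG
  Fermat.Agent.MW.Ht.Defs Fermat.Agent.MW.Ht.AbsQb

local notation "Qb" => AlgebraicClosure ℚ
local notation "GQ" => (AlgebraicClosure ℚ ≃ₐ[ℚ] AlgebraicClosure ℚ)

variable (N : ℕ) [NeZero N]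

namespace North6

/-- `rho N` is injective. -/
theorem rho_injective : Function.Injective (rho N) :=
  Fermat.Agent.MW.HG.SettingInst.gal_injective N

variable {N}

/-- In a modular setting, `Sg`-sums are sums over the transversal `Sg₀`. -/
theorem sum_Sg {t : FN N} {m : ℕ} {𝒮 : Setting absFamily (pinf N) t m}
    {U₀ : Subgroup GQ} {Sg₀ : Finset GQ} (h𝒮 : IsModular N 𝒮 U₀ Sg₀)
    {M : Type*} [AddCommMonoid M] (f : SemilinearAut Qb (FN N) → M) :
    ∑ s ∈ 𝒮.Sg, f s = ∑ σ ∈ Sg₀, f (rho N σ) := by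
  classical
  have hSg : 𝒮.Sg = Sg₀.image (rho N) := by
    ext s
    rw [h𝒮.hSg s, Finset.mem_image]
  rw [hSg, Finset.sum_image fun x _ y _ h => rho_injective N h]

/-- In a modular setting, `t` is fixed by `G_ℚ`. -/
theorem t_fixed {t : FN N} {m : ℕ} {𝒮 : Setting absFamily (pinf N) t m}
    {U₀ : Subgroup GQ} {Sg₀ : Finset GQ} (h𝒮 : IsModular N 𝒮 U₀ Sg₀) (σ : GQ) :
    rho N σ • t = t :=
  𝒮.t_fixed _ (h𝒮.hΓ ▸ MonoidHom.mem_range.mpr ⟨σ, rfl⟩)

/-- In a modular setting, the image of `U₀` lies in `𝒮.U`. -/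
theorem rho_mem_U {t : FN N} {m : ℕ} {𝒮 : Setting absFamily (pinf N) t m}
    {U₀ : Subgroup GQ} {Sg₀ : Finset GQ} (h𝒮 : IsModular N 𝒮 U₀ Sg₀) {σ : GQ} (hσ : σ ∈ U₀) :
    rho N σ ∈ 𝒮.U :=
  h𝒮.hU ▸ Subgroup.mem_map_of_mem _ hσ

end North6

/-- **Row 492 (I6 North).**  Northcott for `U`-stable divisors in the final vocabulary. -/
theorem north_modular {t : FN N} {m : ℕ} (𝒮 : Setting absFamily (pinf N) t m)
    {U₀ : Subgroup GQ} {Sg₀ : Finset GQ} (h𝒮 : IsModular N 𝒮 U₀ Sg₀) (d : ℕ) (T : ℝ) :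
    {E | E ∈ 𝒮.RatU ∧ deg E ≤ d ∧ ht 𝒮.etaU E ≤ T}.Finite :=
  Fermat.Agent.MW.HG.NorthInst.north_of_setting (N := N) 𝒮 U₀ Sg₀
    (fun g => (h𝒮.hS g).exists)
    (fun _ hσ => North6.rho_mem_U h𝒮 hσ) (fun f => North6.sum_Sg h𝒮 f)
    (North6.t_fixed h𝒮) d T

end Fermat.Agent.MW.Inst
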