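/-
MW / HT-Q instance, row I5d (helper69): THE MOVING LEMMA IN THE FINAL VOCABULARY, and the bridge
between effective divisors on the points (`Pt N →₀ ℕ`, vocabulary of `Ht/Defs.lean`) and
effective divisors on all places (`Pl N →₀ ℕ`, vocabulary of `HG/Defs.lean` and
`Inst/Defs.lean`).

Everything is a re-statement of `MW/Gen/PlBridge.lean` for `Inst.clPl` and for a setting with
`IsModular N 𝒮 U₀ Sg₀`.

* `toPl`, `ofPl`, `toPl_apply`, `toPl_pinf`, `ofPl_apply`, `ofPl_toPl`, `toPl_ofPl`, `deg_toPl`,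
  `deg_ofPl`, `toPl_injective`, `mem_support_toPl`;
* `RepInst.mem_RatU_iff` (`D ∈ 𝒮.RatU ↔ D ∞ = 0 ∧ U₀-stable`), `toPl_mem_RatU`, `ofPl_mem_RatU`;
* `RepInst.clPl_eq_bridge`, `RepInst.clPl_eq_clFull`, `RepInst.clPl_mem_JU`, `clPl_toPl`;
* `exists_rep` : the row.
-/
import Mathlib
import Fermat.Agent.MW.Inst.Defs
import Fermat.Agent.MW.Gen.PlBridge

set_option autoImplicit false
set_option linter.unusedSectionVars false

noncomputable section

namespace Fermat.Agent.MW.Inst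

open AlgebraicCurve ModularCurve Fermat.Agent.MW.HtM Fermat.Agent.MW.HQ Fermat.Agent.MW.HG
  Fermat.Agent.MW.Ht.Defs Fermat.Agent.MW.Ht.AbsQb

local notation "Qb" => AlgebraicClosure ℚ
local notation "GQ" => (AlgebraicClosure ℚ ≃ₐ[ℚ] AlgebraicClosure ℚ)

variable (N : ℕ) [NeZero N]

/-! ### The bridge `Pt N →₀ ℕ` ↔ `Pl N →₀ ℕ` -/

/-- Extension by zero at `∞`. -/
def toPl : (Pt N →₀ ℕ) →+ (Pl N →₀ ℕ) := Gen.PlBridge.toPl N

/-- Restriction to the points. -/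
def ofPl : (Pl N →₀ ℕ) →+ (Pt N →₀ ℕ) := Gen.PlBridge.ofPl N

theorem toPl_eq_mapDomain (D : Pt N →₀ ℕ) :
    toPl N D = D.mapDomain (Subtype.val : Pt N → Pl N) := rfl

theorem toPl_apply (D : Pt N →₀ ℕ) (p : Pt N) : toPl N D (p : Pl N) = D p :=
  Gen.PlBridge.toPl_apply N D p

theorem toPl_pinf (D : Pt N →₀ ℕ) : toPl N D (pinf N) = 0 := Gen.PlBridge.toPl_pinf N D

theorem ofPl_apply (D : Pl N →₀ ℕ) (p : Pt N) : ofPl N D p = D (p : Pl N) := rfl

theorem ofPl_eq_subtypeDomain (D : Pl N →₀ ℕ) :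
    ofPl N D = D.subtypeDomain fun P : Pl N => P ≠ pinf N :=
  Finsupp.ext fun _ => rfl

theorem ofPl_toPl (D : Pt N →₀ ℕ) : ofPl N (toPl N D) = D := Gen.PlBridge.ofPl_toPl N D

theorem toPl_ofPl {D : Pl N →₀ ℕ} (h : D (pinf N) = 0) : toPl N (ofPl N D) = D :=
  Gen.PlBridge.toPl_ofPl N h

theorem toPl_injective : Function.Injective (toPl N) := Gen.PlBridge.toPl_injective N

theorem deg_toPl (D : Pt N →₀ ℕ) : deg (toPl N D) = deg D := Gen.PlBridge.deg_toPl N D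

theorem deg_ofPl {D : Pl N →₀ ℕ} (h : D (pinf N) = 0) : deg (ofPl N D) = deg D :=
  Gen.PlBridge.deg_ofPl N h

theorem mem_support_toPl {D : Pt N →₀ ℕ} {P : Pl N} (hP : P ∈ (toPl N D).support) :
    ∃ p ∈ D.support, (p : Pl N) = P := Gen.PlBridge.mem_support_toPl N hP

theorem toPl_galDiv (σ : GQ) (D : Pt N →₀ ℕ) :
    toPl N (galDiv N σ D) = (toPl N D).mapDomain (fun P => rho N σ • P) :=
  Gen.PlBridge.toPl_galDiv N σ D

/-! ### Rational divisors -/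

namespace RepInst

/-- The rational divisors of a modular setting: off `∞` and `U₀`-stable. -/
theorem mem_RatU_iff {t : FN N} {m : ℕ} {𝒮 : Setting absFamily (pinf N) t m}
    {U₀ : Subgroup GQ} {Sg₀ : Finset GQ} (h𝒮 : IsModular N 𝒮 U₀ Sg₀) {D : Pl N →₀ ℕ} :
    D ∈ 𝒮.RatU ↔ D (pinf N) = 0 ∧ ∀ σ ∈ U₀, D.mapDomain (fun P => rho N σ • P) = D := by
  rw [Setting.mem_RatU, h𝒮.hU]
  refine and_congr_right fun _ => ⟨fun h σ hσ => h _ (Subgroup.mem_map_of_mem _ hσ), ?_⟩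
  rintro h u ⟨σ, hσ, rfl⟩
  exact h σ hσ

end RepInst

/-- The extension of a divisor on the points is rational iff the divisor is `U₀`-rational. -/
theorem toPl_mem_RatU {t : FN N} {m : ℕ} {𝒮 : Setting absFamily (pinf N) t m}
    {U₀ : Subgroup GQ} {Sg₀ : Finset GQ} (h𝒮 : IsModular N 𝒮 U₀ Sg₀) {D : Pt N →₀ ℕ} :
    toPl N D ∈ 𝒮.RatU ↔ D ∈ RatU N U₀ := by
  rw [RepInst.mem_RatU_iff N h𝒮]
  constructor
  · rintro ⟨-, h⟩
    have h1 := Gen.PlBridge.mem_RatU_ofPl N (U := U₀) (D := toPl N D) h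
    rwa [show Gen.PlBridge.ofPl N (toPl N D) = D from ofPl_toPl N D] at h1
  · intro h
    exact ⟨toPl_pinf N D, Gen.PlBridge.stable_toPl N h⟩

/-- The restriction of a rational divisor is `U₀`-rational. -/
theorem ofPl_mem_RatU {t : FN N} {m : ℕ} {𝒮 : Setting absFamily (pinf N) t m}
    {U₀ : Subgroup GQ} {Sg₀ : Finset GQ} (h𝒮 : IsModular N 𝒮 U₀ Sg₀) {D : Pl N →₀ ℕ}
    (hD : D ∈ 𝒮.RatU) : ofPl N D ∈ RatU N U₀ :=
  Gen.PlBridge.mem_RatU_ofPl N ((RepInst.mem_RatU_iff N h𝒮).mp hD).2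

/-! ### The class map -/

namespace RepInst

/-- The class map of `Inst/Defs.lean` is the class map of `Gen/PlBridge.lean`. -/
theorem clPl_eq_bridge (D : Pl N →₀ ℕ) : clPl N D = Gen.PlBridge.clPl N D := by
  rw [clPl_apply, Gen.PlBridge.clPl_apply]
  exact congrArg (clFull N) (ofPl_eq_subtypeDomain N D).symm

theorem clPl_eq_clFull (D : Pl N →₀ ℕ) : clPl N D = clFull N (ofPl N D) :=
  clPl_eq_bridge N D

/-- The class of a `U₀`-stable divisor is `U₀`-fixed. -/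
theorem clPl_mem_JU {U₀ : Subgroup GQ} {D : Pl N →₀ ℕ}
    (hD : ∀ σ ∈ U₀, D.mapDomain (fun P => rho N σ • P) = D) : clPl N D ∈ JU N U₀ := by
  intro σ hσ
  rw [clPl_eq_bridge]
  exact Gen.PlBridge.clPl_fixed N hD σ hσ

end RepInst

theorem clPl_toPl (D : Pt N →₀ ℕ) : clPl N (toPl N D) = clFull N D := by
  rw [RepInst.clPl_eq_clFull, ofPl_toPl]

/-! ### The moving lemma -/

/-- **Row I5d.**  The moving lemma in the final vocabulary: every `U₀`-fixed class is the class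
of a rational effective divisor of bounded degree in `t`-general position with respect to any
finite set of places. -/
theorem exists_rep {t : FN N} {m : ℕ} (𝒮 : Setting absFamily (pinf N) t m)
    (ht : ∀ c : Qb, t ≠ algebraMap Qb (FN N) c) {U₀ : Subgroup GQ} {Sg₀ : Finset GQ}
    (h𝒮 : IsModular N 𝒮 U₀ Sg₀) :
    ∃ d₀ : ℕ, ∀ (x : JZero N), (∀ σ ∈ U₀, σ • x = x) → ∀ S : Finset (Pl N),
      ∃ D ∈ 𝒮.RatU, clPl N D = x ∧ deg D ≤ d₀ ∧ ∀ p ∈ D.support, ∀ q ∈ S, 𝒮.far p q := by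
  obtain ⟨d₀, h⟩ := Gen.PlBridge.exists_rep_pl N ht
  refine ⟨d₀, fun x hx S => ?_⟩
  obtain ⟨D, hD0, hDU, hDcl, hDdeg, hDS⟩ := h U₀ x hx S
  exact ⟨D, (RepInst.mem_RatU_iff N h𝒮).mpr ⟨hD0, hDU⟩, by rw [RepInst.clPl_eq_bridge, hDcl],
    hDdeg, hDS⟩

end Fermat.Agent.MW.Inst
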