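/-
MW / HT-Q instance, row I3b (helper86): the divisor of zeros of a function regular off `∞` on
`X_0(N)`, its degree, and the vanishing of its class.

* `exists_zdiv` : a nonzero `f`, regular off `∞`, has a divisor of zeros `Z` off `∞`, of degree
  the pole order of `f` at `∞`;
* `clPl_zdiv` : the class `[Z − deg Z · ∞]` of such a divisor of zeros is `0`.
* `Zdiv.clPl_eq_classZero`, `Zdiv.clPl_eq_plBridge` : the class map `Inst.clPl` is the class map of
  `MW/Gen/ClassZero.lean` and of `MW/Gen/PlBridge.lean`.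
-/
import Mathlib
import Fermat.Agent.MW.Inst.Defs
import Fermat.Agent.MW.Gen.ClassZeroInst

set_option autoImplicit false

noncomputable section

namespace Fermat.Agent.MW.Inst

open AlgebraicCurve ModularCurve Fermat.Agent.MW.HtM Fermat.Agent.MW.HQ Fermat.Agent.MW.HG
  Fermat.Agent.MW.Ht.Defs Fermat.Agent.MW.Ht.AbsQb

local notation "Qb" => AlgebraicClosure ℚ
local notation "GQ" => (AlgebraicClosure ℚ ≃ₐ[ℚ] AlgebraicClosure ℚ)

variable (N : ℕ) [NeZero N]

/-- The class map of `Inst/Defs` is the class map of `Gen/PlBridge`. -/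
theorem Zdiv.clPl_eq_plBridge (Z : Pl N →₀ ℕ) :
    clPl N Z = Fermat.Agent.MW.Gen.PlBridge.clPl N Z := by
  rw [clPl_apply, Fermat.Agent.MW.Gen.PlBridge.clPl_apply]
  congr 1
  ext p
  rfl

/-- The class map of `Inst/Defs` is the class map of `Gen/ClassZero`. -/
theorem Zdiv.clPl_eq_classZero (Z : Pl N →₀ ℕ) :
    clPl N Z = Fermat.Agent.MW.Gen.ClassZero.clPl N Z := by
  rw [Zdiv.clPl_eq_plBridge, Fermat.Agent.MW.Gen.ClassZeroInst.clPl_eq]

/-- **Row I3b (1).** A nonzero function regular off `∞` has a divisor of zeros off `∞`, and its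
degree is the pole order at `∞`. -/
theorem exists_zdiv (f : FN N) (hf : f ≠ 0) (hreg : RegOff (pinf N) f) :
    ∃ Z : Pl N →₀ ℕ, IsZDiv (pinf N) f Z ∧ (deg Z : ℤ) = -(pinf N).ord f := by
  classical
  obtain ⟨D, hD⟩ := Fermat.Agent.CAR.Formal.DescentCore.exists_isDiv
    (Fermat.Agent.Lib.FF.Res.isFF1_modular N) hf
  set E : Divisor Qb (FN N) := D - Finsupp.single (pinf N) ((pinf N).ord f) with hE
  have hEinf : E (pinf N) = 0 := by
    rw [hE, Finsupp.sub_apply, hD.2, Finsupp.single_eq_same, sub_self]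
  have hEP : ∀ P : Pl N, P ≠ pinf N → E P = P.ord f := by
    intro P hP
    rw [hE, Finsupp.sub_apply, hD.2, Finsupp.single_apply, if_neg (Ne.symm hP), sub_zero]
  have hE0 : ∀ P : Pl N, 0 ≤ E P := by
    intro P
    by_cases hP : P = pinf N
    · rw [hP, hEinf]
    · rw [hEP P hP]; exact hreg P hP
  have hZ : IsZDiv (pinf N) f (Fermat.Agent.MW.Ht.RamDiv.toNatDiv E) := by
    refine ⟨?_, fun P hP => ?_⟩
    · rw [Fermat.Agent.MW.Ht.RamDiv.toNatDiv_apply, hEinf]; rfl
    · rw [Fermat.Agent.MW.Ht.RamDiv.coe_toNatDiv (hE0 P), hEP P hP]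
  refine ⟨_, hZ, ?_⟩
  rw [Fermat.Agent.MW.Gen.ClassZero.ord_pinf_of_isZDiv N hf hZ, neg_neg]

set_option linter.unusedVariables false in
/-- **Row I3b (2).** The divisor of zeros of a nonzero function regular off `∞` has class `0`. -/
theorem clPl_zdiv (f : FN N) (hf : f ≠ 0) (hreg : RegOff (pinf N) f) (Z : Pl N →₀ ℕ)
    (hZ : IsZDiv (pinf N) f Z) : clPl N Z = 0 := by
  rw [Zdiv.clPl_eq_classZero]
  exact Fermat.Agent.MW.Gen.ClassZero.clPl_eq_zero_of_isZDiv N hf hZ

/-- The pole order at `∞` of a nonzero function is the degree of its divisor of zeros. -/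
theorem Zdiv.ord_pinf (f : FN N) (hf : f ≠ 0) (Z : Pl N →₀ ℕ)
    (hZ : IsZDiv (pinf N) f Z) : (pinf N).ord f = -(deg Z : ℤ) :=
  Fermat.Agent.MW.Gen.ClassZero.ord_pinf_of_isZDiv N hf hZ

/-- The divisor of zeros off `∞` is unique. -/
theorem Zdiv.unique {f : FN N} {Z Z' : Pl N →₀ ℕ} (h : IsZDiv (pinf N) f Z)
    (h' : IsZDiv (pinf N) f Z') : Z = Z' :=
  Fermat.Agent.MW.Gen.ClassZero.isZDiv_unique h h'

end Fermat.Agent.MW.Inst
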